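import Mathlib
import Fermat.Prelude.Def_CuspForm_HeckeAlgebra
import Fermat.Prelude.Def_CuspForm_IntegralStructure
import Fermat.Prelude.Thm_CuspForm_intLattice_fg
import Fermat.Prelude.Thm_CuspForm_mem_intLattice_of_mem_heckeAlgebra

set_option autoImplicit false

noncomputable section

namespace Fermat.Agent.Lib.CuspFormFinDim

open ModularFormClass UpperHalfPlane
open P2MW.S_CuspForm_intLattice_fg.W3WsD

local notation "Γ₀(" N ")" => CongruenceSubgroup.Gamma0 N

/-- `qCoeff` is compatible with complex scalar multiplication. -/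
theorem qCoeff_smul {N : ℕ} {k : ℤ} (c : ℂ) (f : CuspForm Γ₀(N) k) (n : ℕ) :
    qCoeff ⇑(c • f) n = c * qCoeff ⇑f n := by
  have h1 : ⇑(c • f) = c • ⇑f := by
    ext z
    simp
  simp only [qCoeff, h1]
  rw [ModularForm.qExpansion_smul one_pos (hΓ N) c f]
  simp

/-- The truncated `q`-expansion map, as a `ℂ`-linear map. -/
def truncC (N : ℕ) (k : ℤ) : CuspForm Γ₀(N) k →ₗ[ℂ] (Fin (sturmB N k + 1) → ℂ) where
  toFun f i := qCoeff ⇑f i
  map_add' f g := by
    funext i
    exact qCoeff_add f g i
  map_smul' c f := by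
    funext i
    simp only [Pi.smul_apply, RingHom.id_apply, smul_eq_mul]
    exact qCoeff_smul c f i

theorem truncC_injective (N : ℕ) [NeZero N] (k : ℤ) : Function.Injective (truncC N k) := by
  intro f g h
  apply trunc_injective N k
  exact h

/-- The space of cusp forms of level `Γ₀(N)` and weight `k` is finite-dimensional. -/
theorem finiteDimensional (N : ℕ) [NeZero N] (k : ℤ) :
    FiniteDimensional ℂ (CuspForm Γ₀(N) k) :=
  FiniteDimensional.of_injective (truncC N k) (truncC_injective N k)

/-- The full `q`-expansion coefficient map is injective on cusp forms of level `Γ₀(N)`. -/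
theorem eq_of_qCoeff_eq {N : ℕ} [NeZero N] {k : ℤ} {f g : CuspForm Γ₀(N) k}
    (h : ∀ n, qCoeff ⇑f n = qCoeff ⇑g n) : f = g := by
  apply truncC_injective N k
  funext i
  exact h i

end Fermat.Agent.Lib.CuspFormFinDim
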