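import Mathlib
import Fermat.Prelude.Def_EllipticCurve_FrobeniusTrace

set_option autoImplicit false

/-!
# Key lemma for Frobenius elements

For a valuation subring `A` of a field `L` containing a prime number `ℓ` in its maximal ideal,
every element of `A` algebraic over `ℚ` is a quotient `a / b` of elements integral over `ℤ`
with `b` a unit of `A`.
-/

namespace Fermat.Agent.FrobLib

open Polynomial

section Horner

variable {R S : Type*} [CommRing R] [CommRing S] [Algebra R S]

/-- If `b x^(k+1) + r(x) = 0` with `deg r < k+1` and `b` integral then `b x` is integral. -/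
theorem isIntegral_mul_of_root (x : S) (b : integralClosure R S) (r : (integralClosure R S)[X])
    (k : ℕ) (hr : r.degree < ((k + 1 : ℕ) : WithBot ℕ))
    (h : (b : S) * x ^ (k + 1) + aeval x r = 0) : IsIntegral R ((b : S) * x) := by
  by_cases hb : b = 0
  · simp only [hb, ZeroMemClass.coe_zero, zero_mul]
    exact isIntegral_zero
  · have hdeg : (C b * X ^ (k + 1) : (integralClosure R S)[X]).degree = ((k + 1 : ℕ) : WithBot ℕ) :=
      degree_C_mul_X_pow _ hb
    have hlead : (C b * X ^ (k + 1) + r).leadingCoeff = b := by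
      rw [add_comm, leadingCoeff_add_of_degree_lt (by rw [hdeg]; exact hr)]
      simp
    have hP : aeval x (C b * X ^ (k + 1) + r) = 0 := by
      simpa using h
    have h1 := isIntegral_leadingCoeff_smul (C b * X ^ (k + 1) + r) x hP
    rw [hlead] at h1
    exact isIntegral_trans _ h1

/-- Horner elements of a polynomial with root `x` are integral. -/
theorem horner_isIntegral (x : S) :
    ∀ (n : ℕ) (q r : (integralClosure R S)[X]) (k : ℕ), q.natDegree ≤ n →
      r.degree < (k : WithBot ℕ) → aeval x (X ^ k * q + r) = 0 → IsIntegral R (aeval x q)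
  | 0, q, r, k, hq, _, _ => by
      rw [eq_C_of_natDegree_le_zero hq, aeval_C]
      exact (q.coeff 0).2
  | n + 1, q, r, k, hq, hr, h => by
      have hq1 : (divX q).natDegree ≤ n := by
        rw [natDegree_divX_eq_natDegree_tsub_one]; omega
      have hr' : (C (q.coeff 0) * X ^ k + r).degree < ((k + 1 : ℕ) : WithBot ℕ) := by
        refine lt_of_le_of_lt (degree_add_le _ _) (max_lt ?_ ?_)
        · exact lt_of_le_of_lt (degree_C_mul_X_pow_le _ _) (by exact_mod_cast Nat.lt_succ_self k)
        · exact lt_trans hr (by exact_mod_cast Nat.lt_succ_self k)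
      have hpoly : X ^ (k + 1) * divX q + (C (q.coeff 0) * X ^ k + r) = X ^ k * q + r := by
        conv_rhs => rw [← X_mul_divX_add q]
        ring
      have h' : aeval x (X ^ (k + 1) * divX q + (C (q.coeff 0) * X ^ k + r)) = 0 := by
        rw [hpoly]; exact h
      have hc := horner_isIntegral x n (divX q) _ (k + 1) hq1 hr' h'
      have hxc : IsIntegral R (aeval x (divX q) * x) := by
        refine isIntegral_mul_of_root x ⟨_, hc⟩ (C (q.coeff 0) * X ^ k + r) k hr' ?_
        rw [← h']
        simp only [map_add, map_mul, map_pow, aeval_X]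
        ring
      have hq' : aeval x q = aeval x (divX q) * x + ((q.coeff 0 : integralClosure R S) : S) := by
        conv_lhs => rw [← divX_mul_X_add q]
        simp
      rw [hq']
      exact hxc.add (q.coeff 0).2

end Horner

section Key

variable {L : Type*} [Field L] (A : ValuationSubring L) {ℓ : ℕ}

theorem intCast_mem_valuationSubring (a : ℤ) : (a : L) ∈ A := by
  exact intCast_mem A a

include A in
/-- An integer prime to `ℓ` is a unit in a valuation ring over `ℓ`. -/
theorem intCast_not_mem_nonunits (hℓ : ℓ.Prime) (hA : (ℓ : L) ∈ A.nonunits) {a : ℤ}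
    (ha : ¬ (ℓ : ℤ) ∣ a) : (a : L) ∉ A.nonunits := by
  intro h
  have hcop : IsCoprime (ℓ : ℤ) a :=
    ((Nat.prime_iff_prime_int.mp hℓ).coprime_iff_not_dvd).mpr ha
  obtain ⟨u, v, huv⟩ := hcop
  have h1 : ((u : L) * (ℓ : L) + (v : L) * (a : L)) = 1 := by
    have := congrArg (Int.cast : ℤ → L) huv
    push_cast at this
    exact this
  have hval1 : A.valuation ((u : L) * (ℓ : L)) < 1 := by
    rw [map_mul]
    exact mul_lt_one_of_nonneg_of_lt_one_right
      ((A.valuation_le_one_iff _).mpr (intCast_mem_valuationSubring A u)) zero_le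
      (A.mem_nonunits_iff.mp hA)
  have hval2 : A.valuation ((v : L) * (a : L)) < 1 := by
    rw [map_mul]
    exact mul_lt_one_of_nonneg_of_lt_one_right
      ((A.valuation_le_one_iff _).mpr (intCast_mem_valuationSubring A v)) zero_le
      (A.mem_nonunits_iff.mp h)
  have hlt : A.valuation ((u : L) * (ℓ : L) + (v : L) * (a : L)) < 1 :=
    lt_of_le_of_lt (A.valuation.map_add _ _) (max_lt hval1 hval2)
  rw [h1, map_one] at hlt
  exact lt_irrefl _ hlt

theorem aeval_int_mem {x : L} (hx : x ∈ A) (q : ℤ[X]) : aeval x q ∈ A := by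
  have h := Polynomial.aeval_algHom_apply (A.toSubring.subtype.toIntAlgHom) (⟨x, hx⟩ : A.toSubring) q
  have h2 : (A.toSubring.subtype.toIntAlgHom) (⟨x, hx⟩ : A.toSubring) = x := rfl
  rw [h2] at h
  rw [h]
  exact (aeval (⟨x, hx⟩ : A.toSubring) q).2

theorem mul_mem_nonunits_of_mem {x y : L} (hx : x ∈ A) (hy : y ∈ A.nonunits) :
    x * y ∈ A.nonunits := by
  rw [A.mem_nonunits_iff] at hy ⊢
  rw [map_mul]
  exact mul_lt_one_of_nonneg_of_lt_one_right ((A.valuation_le_one_iff _).mpr hx) zero_le hy

theorem key_step (hℓ : ℓ.Prime) (hA : (ℓ : L) ∈ A.nonunits) {x : L} (hx : x ∈ A)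
    (q r : ℤ[X]) (k : ℕ) (hr : r.degree < (k : WithBot ℕ))
    (h : aeval x (X ^ k * q + r) = 0) (hnd : ¬ (C (ℓ : ℤ) ∣ q)) (hdiv : C (ℓ : ℤ) ∣ divX q) :
    ∃ y : L, IsIntegral ℤ y ∧ IsIntegral ℤ (y * x) ∧ y ∉ A.nonunits := by
  obtain ⟨q', hq'⟩ := hdiv
  have ha : ¬ (ℓ : ℤ) ∣ q.coeff 0 := by
    intro hdvd
    apply hnd
    rw [← X_mul_divX_add q, hq']
    obtain ⟨c, hc⟩ := hdvd
    refine ⟨X * q' + C c, ?_⟩
    rw [hc, C_mul]
    ring
  have hy_eq : aeval x q = x * ((ℓ : L) * aeval x q') + ((q.coeff 0 : ℤ) : L) := by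
    conv_lhs => rw [← X_mul_divX_add q, hq']
    simp
  have hy_not : aeval x q ∉ A.nonunits := by
    intro hmem
    apply intCast_not_mem_nonunits A hℓ hA ha
    have h1 : x * ((ℓ : L) * aeval x q') ∈ A.nonunits := by
      apply mul_mem_nonunits_of_mem A hx
      rw [mul_comm]
      exact mul_mem_nonunits_of_mem A (aeval_int_mem A hx q') hA
    have h2 : ((q.coeff 0 : ℤ) : L) = aeval x q - x * ((ℓ : L) * aeval x q') := by
      rw [hy_eq]; ring
    rw [h2]
    exact sub_mem hmem h1
  -- integrality
  have hmapq : aeval x (q.map (algebraMap ℤ (integralClosure ℤ L))) = aeval x q := by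
    rw [aeval_map_algebraMap]
  have hmapr : aeval x (r.map (algebraMap ℤ (integralClosure ℤ L))) = aeval x r := by
    rw [aeval_map_algebraMap]
  have hdegr : (r.map (algebraMap ℤ (integralClosure ℤ L))).degree < (k : WithBot ℕ) :=
    lt_of_le_of_lt (degree_map_le) hr
  have hroot : aeval x (X ^ k * q.map (algebraMap ℤ (integralClosure ℤ L)) +
      r.map (algebraMap ℤ (integralClosure ℤ L))) = 0 := by
    have h' := h
    rw [map_add, map_mul] at h' ⊢
    rw [hmapq, hmapr]
    simpa using h'
  have hyint : IsIntegral ℤ (aeval x q) := by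
    rw [← hmapq]
    exact horner_isIntegral x (q.map (algebraMap ℤ (integralClosure ℤ L))).natDegree _ _ k
      le_rfl hdegr hroot
  refine ⟨aeval x q, hyint, ?_, hy_not⟩
  cases k with
  | zero =>
    have hr0 : r = 0 := by
      rw [← degree_eq_bot]
      have : r.degree < ((0 : ℕ) : WithBot ℕ) := hr
      rcases hdeg : r.degree with _ | d
      · rfl
      · rw [hdeg] at this
        exact absurd (WithBot.coe_lt_coe.mp this) (Nat.not_lt_zero _)
    have : aeval x q = 0 := by
      simpa [hr0] using h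
    rw [this, zero_mul]
    exact isIntegral_zero
  | succ k' =>
    refine isIntegral_mul_of_root x ⟨aeval x q, hyint⟩
      (r.map (algebraMap ℤ (integralClosure ℤ L))) k' hdegr ?_
    rw [hmapr]
    have := h
    simp only [map_add, map_mul, map_pow, aeval_X] at this
    rw [← this]
    ring

theorem key_aux (hℓ : ℓ.Prime) (hA : (ℓ : L) ∈ A.nonunits) {x : L} (hx : x ∈ A) :
    ∀ (n : ℕ) (q r : ℤ[X]) (k : ℕ), q.natDegree ≤ n → r.degree < (k : WithBot ℕ) →
      aeval x (X ^ k * q + r) = 0 → ¬ (C (ℓ : ℤ) ∣ q) →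
      ∃ y : L, IsIntegral ℤ y ∧ IsIntegral ℤ (y * x) ∧ y ∉ A.nonunits := by
  intro n
  induction n with
  | zero =>
    intro q r k hq hr h hnd
    -- `q` is a constant
    have hqC : q = C (q.coeff 0) := eq_C_of_natDegree_le_zero hq
    have hdiv : C (ℓ : ℤ) ∣ divX q := by
      rw [hqC, divX_C]; exact dvd_zero _
    exact key_step A hℓ hA hx q r k hr h hnd hdiv
  | succ n ih =>
    intro q r k hq hr h hnd
    by_cases hdiv : C (ℓ : ℤ) ∣ divX q
    · exact key_step A hℓ hA hx q r k hr h hnd hdiv
    · have hq1 : (divX q).natDegree ≤ n := by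
        rw [natDegree_divX_eq_natDegree_tsub_one]; omega
      have hr' : (C (q.coeff 0) * X ^ k + r).degree < ((k + 1 : ℕ) : WithBot ℕ) := by
        refine lt_of_le_of_lt (degree_add_le _ _) (max_lt ?_ ?_)
        · exact lt_of_le_of_lt (degree_C_mul_X_pow_le _ _) (by exact_mod_cast Nat.lt_succ_self k)
        · exact lt_trans hr (by exact_mod_cast Nat.lt_succ_self k)
      have hpoly : X ^ (k + 1) * divX q + (C (q.coeff 0) * X ^ k + r) = X ^ k * q + r := by
        conv_rhs => rw [← X_mul_divX_add q]
        ring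
      exact ih (divX q) _ (k + 1) hq1 hr' (by rw [hpoly]; exact h) hdiv

/-- **Key lemma.** In a valuation ring `A` over a prime `ℓ` of a field of characteristic zero,
every element algebraic over `ℤ` is of the form `(y * x) / y` with `y`, `y * x` integral over
`ℤ` and `y` a unit of `A`. -/
theorem exists_integral_fraction [CharZero L] (hℓ : ℓ.Prime) (hA : (ℓ : L) ∈ A.nonunits)
    {x : L} (hx : x ∈ A) (halg : IsAlgebraic ℤ x) :
    ∃ y : L, IsIntegral ℤ y ∧ IsIntegral ℤ (y * x) ∧ y ∉ A.nonunits := by
  obtain ⟨p, hp0, hp⟩ := halg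
  have hprim : p.primPart.IsPrimitive := p.isPrimitive_primPart
  have hroot : aeval x p.primPart = 0 := by
    have h1 : aeval x p = (p.content : L) * aeval x p.primPart := by
      conv_lhs => rw [p.eq_C_content_mul_primPart]
      simp
    rw [h1] at hp
    rcases mul_eq_zero.mp hp with h | h
    · exfalso
      have : p.content = 0 := by exact_mod_cast h
      exact hp0 (content_eq_zero_iff.mp this)
    · exact h
  have hnd : ¬ (C (ℓ : ℤ) ∣ p.primPart) := by
    intro hdvd
    have hu := hprim _ hdvd
    have := Int.isUnit_iff.mp hu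
    have hℓ2 := hℓ.two_le
    omega
  exact key_aux A hℓ hA hx p.primPart.natDegree p.primPart 0 0 le_rfl
    (by simp) (by simpa using hroot) hnd

end Key

end Fermat.Agent.FrobLib
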