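import Mathlib
import Fermat.Prelude.Def_EllipticCurve_FrobeniusTrace

open scoped Pointwise

set_option linter.style.haveILetI false

namespace Fermat.Agent.FrobLib

noncomputable section

local instance isAlgebraicQbar : Algebra.IsAlgebraic ℚ (AlgebraicClosure ℚ) :=
  AlgebraicClosure.isAlgebraic ℚ
local instance isAlgClosureQbar : IsAlgClosure ℚ (AlgebraicClosure ℚ) :=
  ⟨inferInstance, inferInstance⟩
local instance isGaloisQbar : IsGalois ℚ (AlgebraicClosure ℚ) :=
  IsAlgClosure.isGalois ℚ (AlgebraicClosure ℚ)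

/-- The ring of all algebraic integers. -/
abbrev Zbar : Subalgebra ℤ (AlgebraicClosure ℚ) := integralClosure ℤ (AlgebraicClosure ℚ)

abbrev GQ : Type := (AlgebraicClosure ℚ ≃ₐ[ℚ] AlgebraicClosure ℚ)

theorem isInvariant_Zbar : Algebra.IsInvariant ℤ Zbar GQ := by
  refine ⟨fun b hb => ?_⟩
  have h1 : (b : AlgebraicClosure ℚ) ∈ (⊥ : IntermediateField ℚ (AlgebraicClosure ℚ)) := by
    rw [InfiniteGalois.mem_bot_iff_fixed]
    intro f
    have := congrArg (fun x : Zbar => (x : AlgebraicClosure ℚ)) (hb f)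
    simpa using this
  rw [IntermediateField.mem_bot] at h1
  obtain ⟨q, hq⟩ := h1
  have hint : IsIntegral ℤ (b : AlgebraicClosure ℚ) := b.2
  rw [← hq] at hint
  have hq' : IsIntegral ℤ q :=
    (isIntegral_algebraMap_iff (algebraMap ℚ (AlgebraicClosure ℚ)).injective).mp hint
  obtain ⟨n, hn⟩ := IsIntegrallyClosed.isIntegral_iff.mp hq'
  refine ⟨n, Subtype.ext ?_⟩
  rw [← hq, ← hn]
  simp

/-- Frobenius as an algebra automorphism of a field `F` algebraic over a finite prime field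
quotient. -/
theorem exists_frobenius_algEquiv (ℓ : ℕ) (hℓ : ℓ.Prime) (k F : Type*) [Field k] [Field F]
    [Algebra k F] [Algebra.IsAlgebraic k F] [Finite k] (hk : Nat.card k = ℓ) :
    ∃ e : F ≃ₐ[k] F, ∀ x : F, e x = x ^ ℓ := by
  classical
  haveI : Fact ℓ.Prime := ⟨hℓ⟩
  haveI : Fintype k := Fintype.ofFinite k
  have hcard : Fintype.card k = ℓ := by rw [← Nat.card_eq_fintype_card]; exact hk
  haveI hchk : CharP k ℓ := by
    obtain ⟨p, hp⟩ := CharP.exists k
    haveI := hp
    obtain ⟨n, hpprime, hn⟩ := FiniteField.card k p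
    rw [hcard] at hn
    have : p = ℓ := by
      have h1 : p ∣ ℓ := by rw [hn]; exact dvd_pow_self p n.ne_zero
      exact ((Nat.prime_dvd_prime_iff_eq hpprime hℓ).mp h1)
    exact this ▸ hp
  haveI hchF : CharP F ℓ := charP_of_injective_algebraMap (algebraMap k F).injective ℓ
  haveI : PerfectField F := Algebra.IsAlgebraic.perfectField k
  haveI : ExpChar F ℓ := ExpChar.prime hℓ
  let f : F →ₐ[k] F :=
    { frobenius F ℓ with
      commutes' := fun a => by
        show frobenius F ℓ (algebraMap k F a) = algebraMap k F a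
        rw [frobenius_def, ← map_pow]
        congr 1
        have := FiniteField.pow_card a
        rwa [hcard] at this }
  have hbij : Function.Bijective f := by
    have : Function.Bijective (frobenius F ℓ) := bijective_frobenius F ℓ
    exact this
  exact ⟨AlgEquiv.ofBijective f hbij, fun x => rfl⟩

/-- Existence of a Frobenius element on the ring of algebraic integers: for every prime ideal
`Q` of `Zbar` containing the prime `ℓ`, some `σ` in the absolute Galois group fixes `Q` and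
acts as `x ↦ x ^ ℓ` modulo `Q`. -/
theorem exists_frob_Zbar (ℓ : ℕ) (hℓ : ℓ.Prime) (Q : Ideal Zbar) (hQ : Q.IsPrime)
    (hℓQ : (ℓ : Zbar) ∈ Q) :
    ∃ σ : GQ, σ • Q = Q ∧ ∀ b : Zbar, σ • b - b ^ ℓ ∈ Q := by
  classical
  letI : TopologicalSpace Zbar := ⊥
  haveI : DiscreteTopology Zbar := ⟨rfl⟩
  haveI : ContinuousSMul GQ Zbar := by
    rw [continuousSMul_iff_stabilizer_isOpen]
    intro x
    have h := stabilizer_isOpen_of_isIntegral (K := ℚ) (L := AlgebraicClosure ℚ) (x : AlgebraicClosure ℚ)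
    convert h using 1
    ext g
    simp only [SetLike.mem_coe, MulAction.mem_stabilizer_iff]
    constructor
    · intro hg
      have := congrArg (fun x : Zbar => (x : AlgebraicClosure ℚ)) hg
      simpa using this
    · intro hg
      exact Subtype.ext (by simpa using hg)
  haveI := isInvariant_Zbar
  set P : Ideal ℤ := Ideal.span {(ℓ : ℤ)} with hP
  haveI hPprime : P.IsPrime := by
    rw [hP, Ideal.span_singleton_prime (by exact_mod_cast hℓ.ne_zero)]
    exact Nat.prime_iff_prime_int.mp hℓ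
  haveI hPmax : P.IsMaximal := by
    apply Ideal.IsPrime.isMaximal hPprime
    rw [hP]
    simp [hℓ.ne_zero]
  haveI hQP : Q.LiesOver P := by
    constructor
    have hle : P ≤ Q.under ℤ := by
      rw [hP, Ideal.span_singleton_le_iff_mem, Ideal.under_def, Ideal.mem_comap]
      simpa using hℓQ
    have hne : Q.under ℤ ≠ ⊤ := by
      rw [Ideal.under_def]
      exact Ideal.comap_ne_top _ hQ.ne_top
    exact hPmax.eq_of_le hne hle
  haveI hQmax : Q.IsMaximal := Ideal.IsMaximal.of_liesOver_isMaximal Q P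
  letI : Field (ℤ ⧸ P) := Ideal.Quotient.field P
  letI : Field (Zbar ⧸ Q) := Ideal.Quotient.field Q
  have hcard : Nat.card (ℤ ⧸ P) = ℓ := by
    rw [hP, Nat.card_congr (Int.quotientSpanNatEquivZMod ℓ).toEquiv, Nat.card_zmod]
  haveI : Finite (ℤ ⧸ P) := Nat.finite_of_card_ne_zero (hcard ▸ hℓ.ne_zero)
  haveI hint : Algebra.IsIntegral (ℤ ⧸ P) (Zbar ⧸ Q) :=
    Ideal.Quotient.algebra_isIntegral_of_liesOver Q P
  haveI : Algebra.IsAlgebraic (ℤ ⧸ P) (Zbar ⧸ Q) := Algebra.IsIntegral.isAlgebraic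
  obtain ⟨e, he⟩ := exists_frobenius_algEquiv ℓ hℓ (ℤ ⧸ P) (Zbar ⧸ Q) hcard
  obtain ⟨σ, hσ⟩ := Ideal.Quotient.stabilizerHom_surjective_of_profinite (G := GQ) P Q e
  refine ⟨σ.1, σ.2, fun b => ?_⟩
  have h1 := DFunLike.congr_fun hσ (Ideal.Quotient.mk Q b)
  rw [he] at h1
  rw [← Ideal.Quotient.eq, map_pow, ← h1]
  rfl

theorem mem_valuationSubring_of_isIntegral (A : ValuationSubring (AlgebraicClosure ℚ))
    {b : AlgebraicClosure ℚ} (hb : IsIntegral ℤ b) : b ∈ A := by
  have h1 : IsIntegral A b := hb.tower_top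
  obtain ⟨a, ha⟩ := (IsIntegrallyClosed.isIntegral_iff (R := A) (K := AlgebraicClosure ℚ)).mp h1
  rw [← ha]
  exact a.2

/-- PART B: a Frobenius element on the algebraic integers, relative to the place `A`. -/
theorem exists_frob_on_integers (A : ValuationSubring (AlgebraicClosure ℚ)) (l : ℕ)
    (hl : l.Prime) (hA : A.LiesOverPrime l) :
    ∃ σ : AlgebraicClosure ℚ ≃ₐ[ℚ] AlgebraicClosure ℚ,
      (∀ b : AlgebraicClosure ℚ, IsIntegral ℤ b → (b ∈ A.nonunits ↔ σ b ∈ A.nonunits)) ∧
      (∀ b : AlgebraicClosure ℚ, IsIntegral ℤ b → σ b - b ^ l ∈ A.nonunits) := by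
  classical
  have hle : Zbar.toSubring ≤ A.toSubring := fun b hb =>
    mem_valuationSubring_of_isIntegral A hb
  let f : Zbar →+* A := Subring.inclusion hle
  let Q : Ideal Zbar := Ideal.comap f (IsLocalRing.maximalIdeal A)
  have hQprime : Q.IsPrime := Ideal.comap_isPrime f _
  have hmemQ : ∀ b : Zbar, b ∈ Q ↔ (b : AlgebraicClosure ℚ) ∈ A.nonunits := by
    intro b
    rw [ValuationSubring.mem_nonunits_iff_exists_mem_maximalIdeal]
    constructor
    · intro h
      exact ⟨hle b.2, h⟩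
    · rintro ⟨_, h⟩
      exact h
  have hlQ : (l : Zbar) ∈ Q := by
    rw [hmemQ]
    have h0 : ((l : Zbar) : AlgebraicClosure ℚ) = (l : AlgebraicClosure ℚ) := by simp
    rw [h0]
    exact hA
  obtain ⟨σ, hσQ, hσ⟩ := exists_frob_Zbar l hl Q hQprime hlQ
  refine ⟨σ, fun b hb => ?_, fun b hb => ?_⟩
  · have h1 := hmemQ ⟨b, hb⟩
    have h2 := hmemQ (σ • ⟨b, hb⟩)
    have h3 : σ • (⟨b, hb⟩ : Zbar) ∈ Q ↔ (⟨b, hb⟩ : Zbar) ∈ Q := by
      conv_lhs => rw [← hσQ]
      exact Ideal.smul_mem_pointwise_smul_iff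
    rw [← h1, ← h3, h2]
    rfl
  · have h1 := hσ ⟨b, hb⟩
    rw [hmemQ] at h1
    simpa using h1

end

end Fermat.Agent.FrobLib
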