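import Mathlib
import Fermat.Prelude.Def_EllipticCurve_FrobeniusTrace
import Fermat.Agent.Lib.FrobeniusKey
import Fermat.Agent.Lib.FrobeniusProfinite

set_option autoImplicit false

/-!
# Assembling Frobenius elements

Given a valuation subring `A` of `AlgebraicClosure ℚ` over a prime `ℓ` and an automorphism `σ`
which preserves the prime of the ring of algebraic integers below `A` and acts on algebraic
integers as `x ↦ x ^ ℓ` modulo that prime, `σ` is a Frobenius element at `A`.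
-/

namespace Fermat.Agent.FrobLib

open scoped Pointwise

local notation "Qbar" => AlgebraicClosure ℚ
local notation "GalQ" => (AlgebraicClosure ℚ ≃ₐ[ℚ] AlgebraicClosure ℚ)

/-- `AlgebraicClosure ℚ` is an algebraic closure of `ℚ` for the `ℚ`-algebra structure found by
instance resolution. -/
theorem isAlgClosure_Qbar : IsAlgClosure ℚ Qbar := AlgebraicClosure.instIsAlgClosure ℚ

theorem isAlgebraic_int_Qbar (x : Qbar) : IsAlgebraic (R := ℤ) (A := Qbar) x := by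
  have := isAlgClosure_Qbar
  have h : IsAlgebraic ℚ x := Algebra.IsAlgebraic.isAlgebraic x
  exact (IsFractionRing.isAlgebraic_iff ℤ ℚ Qbar).mpr h

theorem inv_mem_of_not_mem_nonunits {L : Type*} [Field L] (A : ValuationSubring L) {u : L}
    (hu : u ∉ A.nonunits) : u ≠ 0 ∧ u⁻¹ ∈ A := by
  rw [A.mem_nonunits_iff_or] at hu
  push Not at hu
  exact hu

theorem mem_of_isIntegral_int {L : Type*} [Field L] (A : ValuationSubring L) {x : L}
    (hx : IsIntegral ℤ x) : x ∈ A := by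
  have h : IsIntegral A x := hx.tower_top
  obtain ⟨y, hy⟩ := IsIntegrallyClosed.isIntegral_iff.mp h
  rw [← hy]
  exact y.2

theorem isIntegral_map_GQ (σ : GalQ) {x : Qbar} (hx : IsIntegral ℤ x) : IsIntegral ℤ (σ x) :=
  hx.map (σ : Qbar →ₐ[ℚ] Qbar).toRingHom.toIntAlgHom

/-- `σ` maps `A` into `A`. -/
theorem map_mem_of_partB (A : ValuationSubring Qbar) {ℓ : ℕ} (hℓ : ℓ.Prime)
    (hA : A.LiesOverPrime ℓ) (σ : GalQ)
    (hσ1 : ∀ b : Qbar, IsIntegral ℤ b → b ∉ A.nonunits → σ b ∉ A.nonunits)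
    {x : Qbar} (hx : x ∈ A) : σ x ∈ A := by
  obtain ⟨y, hy, hyx, hyn⟩ := exists_integral_fraction A hℓ hA hx (isAlgebraic_int_Qbar x)
  have h1 : σ y ∉ A.nonunits := hσ1 y hy hyn
  obtain ⟨h0, hinv⟩ := inv_mem_of_not_mem_nonunits A h1
  have h3 : σ (y * x) ∈ A := mem_of_isIntegral_int A (isIntegral_map_GQ σ hyx)
  have h4 : σ x = (σ y)⁻¹ * σ (y * x) := by
    rw [map_mul, ← mul_assoc, inv_mul_cancel₀ h0, one_mul]
  rw [h4]
  exact A.mul_mem _ _ hinv h3

/-- `σ` acts as the `ℓ`-power map modulo the maximal ideal of `A`. -/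
theorem map_sub_pow_mem_of_partB (A : ValuationSubring Qbar) {ℓ : ℕ} (hℓ : ℓ.Prime)
    (hA : A.LiesOverPrime ℓ) (σ : GalQ)
    (hσ1 : ∀ b : Qbar, IsIntegral ℤ b → b ∉ A.nonunits → σ b ∉ A.nonunits)
    (hσ2 : ∀ b : Qbar, IsIntegral ℤ b → σ b - b ^ ℓ ∈ A.nonunits)
    {x : Qbar} (hx : x ∈ A) : σ x - x ^ ℓ ∈ A.nonunits := by
  obtain ⟨y, hy, hyx, hyn⟩ := exists_integral_fraction A hℓ hA hx (isAlgebraic_int_Qbar x)
  have hσx : σ x ∈ A := map_mem_of_partB A hℓ hA σ hσ1 hx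
  have hm1 := hσ2 (y * x) hyx
  have hm2 := hσ2 y hy
  -- `y ^ ℓ` is a unit of `A`
  have hyl : y ^ ℓ ∉ A.nonunits := by
    rw [A.mem_nonunits_iff, map_pow]
    have h1 : A.valuation y = 1 := by
      have hle : A.valuation y ≤ 1 := (A.valuation_le_one_iff _).mpr (mem_of_isIntegral_int A hy)
      rcases lt_or_eq_of_le hle with h | h
      · exact absurd (A.mem_nonunits_iff.mpr h) hyn
      · exact h
    rw [h1, one_pow]
    exact lt_irrefl _
  obtain ⟨h0, hinv⟩ := inv_mem_of_not_mem_nonunits A hyl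
  have hkey : σ x - x ^ ℓ =
      (y ^ ℓ)⁻¹ * ((σ (y * x) - (y * x) ^ ℓ) - σ x * (σ y - y ^ ℓ)) := by
    rw [map_mul]
    field_simp
    ring
  rw [hkey]
  apply mul_mem_nonunits_of_mem A hinv
  exact sub_mem hm1 (mul_mem_nonunits_of_mem A hσx hm2)

/-- Assembly: an automorphism which is a Frobenius on algebraic integers is a Frobenius
element for the valuation subring. -/
theorem isFrobeniusAt_of_partB (A : ValuationSubring Qbar) {ℓ : ℕ} (hℓ : ℓ.Prime)
    (hA : A.LiesOverPrime ℓ) (σ : GalQ)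
    (hσ1 : ∀ b : Qbar, IsIntegral ℤ b → (b ∈ A.nonunits ↔ σ b ∈ A.nonunits))
    (hσ2 : ∀ b : Qbar, IsIntegral ℤ b → σ b - b ^ ℓ ∈ A.nonunits) :
    A.IsFrobeniusAt σ ℓ := by
  have h1 : ∀ b : Qbar, IsIntegral ℤ b → b ∉ A.nonunits → σ b ∉ A.nonunits :=
    fun b hb hbn h => hbn ((hσ1 b hb).mpr h)
  have h1' : ∀ b : Qbar, IsIntegral ℤ b → b ∉ A.nonunits → σ⁻¹ b ∉ A.nonunits := by
    intro b hb hbn h
    apply hbn
    have := (hσ1 (σ⁻¹ b) (isIntegral_map_GQ σ⁻¹ hb)).mp h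
    simpa using this
  have hmem : σ ∈ A.decompositionSubgroup ℚ := by
    rw [MulAction.mem_stabilizer_iff]
    apply le_antisymm
    · intro z hz
      rw [ValuationSubring.mem_pointwise_smul_iff_inv_smul_mem] at hz
      have := map_mem_of_partB A hℓ hA σ h1 hz
      simpa using this
    · intro z hz
      rw [ValuationSubring.mem_pointwise_smul_iff_inv_smul_mem]
      exact map_mem_of_partB A hℓ hA σ⁻¹ h1' hz
  refine ⟨hmem, fun xbar => ?_⟩
  obtain ⟨x, rfl⟩ := IsLocalRing.residue_surjective xbar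
  rw [← IsLocalRing.ResidueField.residue_smul, ← map_pow, ← sub_eq_zero, ← map_sub,
    IsLocalRing.residue_eq_zero_iff, ← A.coe_mem_nonunits_iff]
  exact map_sub_pow_mem_of_partB A hℓ hA σ h1 hσ2 x.2

/-- Existence of a valuation subring of `AlgebraicClosure ℚ` lying over a prime `ℓ`. -/
theorem exists_liesOverPrime (ℓ : ℕ) (hℓ : ℓ.Prime) :
    ∃ A : ValuationSubring Qbar, A.LiesOverPrime ℓ := by
  let R₀ : Subring Qbar := (Int.castRingHom Qbar).range
  let l₀ : R₀ := ⟨(ℓ : Qbar), ⟨(ℓ : ℤ), by simp⟩⟩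
  have hI : Ideal.span {l₀} ≠ ⊤ := by
    rw [Ne, Ideal.span_singleton_eq_top]
    intro hu
    obtain ⟨u, hu⟩ := hu.exists_right_inv
    obtain ⟨⟨u, m, rfl⟩, rfl⟩ : ∃ u' : R₀, u' = u := ⟨u, rfl⟩
    have h1 : ((ℓ : Qbar)) * ((Int.castRingHom Qbar) m) = 1 := by
      have := congrArg (Subtype.val) hu
      simpa [l₀] using this
    have h2 : ((ℓ : ℤ) * m : ℤ) = 1 := by
      have : (((ℓ : ℤ) * m : ℤ) : Qbar) = ((1 : ℤ) : Qbar) := by
        push_cast
        simpa using h1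
      exact_mod_cast this
    have h3 : IsUnit (ℓ : ℤ) := IsUnit.of_mul_eq_one _ h2
    have := Int.isUnit_iff.mp h3
    have := hℓ.two_le
    omega
  obtain ⟨A, -, hA⟩ := Ideal.image_subset_nonunits_valuationSubring (Ideal.span {l₀}) hI
  refine ⟨A, ?_⟩
  exact hA ⟨l₀, Ideal.subset_span rfl, rfl⟩

/-- **Existence of Frobenius elements** in the absolute Galois group of `ℚ`. -/
theorem exists_isFrobeniusAt (ℓ : ℕ) (hℓ : ℓ.Prime) :
    ∃ (A : ValuationSubring (AlgebraicClosure ℚ))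
      (σ : AlgebraicClosure ℚ ≃ₐ[ℚ] AlgebraicClosure ℚ),
      A.LiesOverPrime ℓ ∧ A.IsFrobeniusAt σ ℓ := by
  obtain ⟨A, hA⟩ := exists_liesOverPrime ℓ hℓ
  obtain ⟨σ, h1, h2⟩ := exists_frob_on_integers A ℓ hℓ hA
  exact ⟨A, σ, hA, isFrobeniusAt_of_partB A hℓ hA σ h1 h2⟩

/-- Every valuation subring of `AlgebraicClosure ℚ` over a prime `ℓ` has a Frobenius element. -/
theorem exists_isFrobeniusAt_of_liesOverPrime (A : ValuationSubring (AlgebraicClosure ℚ))
    (ℓ : ℕ) (hℓ : ℓ.Prime) (hA : A.LiesOverPrime ℓ) :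
    ∃ σ : AlgebraicClosure ℚ ≃ₐ[ℚ] AlgebraicClosure ℚ, A.IsFrobeniusAt σ ℓ := by
  obtain ⟨σ, h1, h2⟩ := exists_frob_on_integers A ℓ hℓ hA
  exact ⟨σ, isFrobeniusAt_of_partB A hℓ hA σ h1 h2⟩

end Fermat.Agent.FrobLib
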